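/-
S59 PRE-WORK / GE9 (E9b), helper46: **the one-prime growth bound of the numerical criterion, on the
RING** (no Selmer groups, no Galois cohomology, no duality).

Setting: `π : R → O` an augmented `O`-algebra (`R = R_{Σ ∪ q}`, `π` = the point of the fixed
newform), `I = ker π`, `M = ρ(τ₀)`, `F = ρ(φ)` (`τ₀` a tame generator at `q`, `φ` a Frobenius lift),
`π(M) = 1` (the point is unramified at `q`), `det M = 1`, `F M = M^q F` (tame relation).

* `Part 1` (any size): relations `∑ j, A i j • x j = 0` in an `O`-module ⟹ `det A • x j = 0` and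
  (`O` a DVR with finite residue field, `det A ≠ 0`) `#span(x) ≤ #(O ⧸ det A)`.
* `Part 2` (`2 × 2`): `D := M - 1` has entries in `I`, `M^q ≡ 1 + qD mod I²`, hence
  `Φ D ≡ q D Φ mod I²` with `Φ = π(F)`; in the coordinates `x = D₁₁, y = D₁₂, z = D₂₁`
  (`D₁₁ + D₂₂ ∈ I²`) this is `growthMat Φ q • (x, y, z)ᵀ ≡ 0` and
  `det (growthMat Φ q) = δ² (1 - q) ((1 + q)² δ - q t²)`  (`δ = det Φ`, `t = tr Φ`); with `δ = q`,
  `t = a_q` this is `q³ (1 - q) ((q + 1)² - a_q²)`, a unit times Wiles' factor
  `c_q = (q - 1)(a_q² - (q + 1)²)`.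
* `Part 3`: the image of `J = (entries of M - 1)` in `R ⧸ I²` has at most `#(O ⧸ c)` elements.
-/
import Mathlib
import Fermat.Agent.GE9.NumCrit.Lat

set_option autoImplicit false

namespace Fermat.Agent.GE9.Growth

open Matrix

/-! ### Part 1: relations and determinants -/

section Relations

variable {O : Type*} [CommRing O] {X : Type*} [AddCommGroup X] [Module O X]

/-- **Cramer**: if `∑ j, A i j • x j = 0` for all `i` then `det A • x j = 0` for all `j`. -/
theorem det_smul_eq_zero_of_relations {n : Type*} [Fintype n] [DecidableEq n]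
    (A : Matrix n n O) (x : n → X) (h : ∀ i, ∑ j, A i j • x j = 0) (j : n) :
    A.det • x j = 0 := by
  have h1 : ∀ k, (A.adjugate * A) j k = if j = k then A.det else 0 := by
    intro k
    rw [Matrix.adjugate_mul, Matrix.smul_apply, Matrix.one_apply, smul_eq_mul]
    split_ifs <;> simp
  have h2 : ∑ k, (A.adjugate * A) j k • x k = A.det • x j := by
    simp_rw [h1]
    simp
  rw [← h2]
  simp_rw [Matrix.mul_apply, Finset.sum_smul, mul_smul]
  rw [Finset.sum_comm]
  simp_rw [← Finset.smul_sum, h, smul_zero]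
  simp

variable [IsDomain O] [IsDiscreteValuationRing O] [Finite (IsLocalRing.ResidueField O)]

/-- `O ⧸ (c)` is finite for `c ≠ 0` (DVR with finite residue field). -/
theorem finite_quotient_span_singleton {c : O} (hc : c ≠ 0) : Finite (O ⧸ Ideal.span {c}) := by
  obtain ⟨n, hn⟩ := Fermat.Agent.GE9.NumCrit.exists_span_singleton_eq_pow hc
  have h := Fermat.Agent.GE9.NumCrit.card_quotient_maximalIdeal_pow (O := O) n
  rw [← hn] at h
  have hpos : 0 < Nat.card (O ⧸ IsLocalRing.maximalIdeal O) := by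
    have : Finite (O ⧸ IsLocalRing.maximalIdeal O) :=
      inferInstanceAs (Finite (IsLocalRing.ResidueField O))
    exact Nat.card_pos
  have : Nat.card (O ⧸ Ideal.span {c}) ≠ 0 := by
    rw [h]; exact (pow_pos hpos n).ne'
  exact Nat.finite_of_card_ne_zero this

/-- **relations bound the span**: if `∑ j, A i j • x j = 0` for all `i` and `det A ≠ 0` then the
`O`-span of the `x j` is finite with at most `#(O ⧸ det A)` elements. -/
theorem card_span_le_of_relations {m : ℕ} (A : Matrix (Fin m) (Fin m) O) (hA : A.det ≠ 0)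
    (x : Fin m → X) (h : ∀ i, ∑ j, A i j • x j = 0) :
    Finite (Submodule.span O (Set.range x)) ∧
      Nat.card (Submodule.span O (Set.range x)) ≤ Nat.card (O ⧸ Ideal.span {A.det}) := by
  classical
  set N : Submodule O (Fin m → O) := Submodule.span O (Set.range fun i => A i) with hN
  let f : (Fin m → O) →ₗ[O] X := Fintype.linearCombination O x
  have hf : ∀ c : Fin m → O, f c = ∑ j, c j • x j := fun c =>
    Fintype.linearCombination_apply O x c
  have hNf : N ≤ LinearMap.ker f := by
    rw [hN, Submodule.span_le]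
    rintro _ ⟨i, rfl⟩
    rw [SetLike.mem_coe, LinearMap.mem_ker, hf]
    exact h i
  have hrange : LinearMap.range f = Submodule.span O (Set.range x) :=
    Fintype.range_linearCombination O x
  have hcard := Fermat.Agent.GE9.NumCrit.card_quotient_span_rows A hA
  have hfinQ : Finite ((Fin m → O) ⧸ N) := by
    have := finite_quotient_span_singleton hA
    have hne : Nat.card ((Fin m → O) ⧸ N) ≠ 0 := by
      rw [hcard]; exact Nat.card_pos.ne'
    exact Nat.finite_of_card_ne_zero hne
  -- the induced surjection `(O ^ m ⧸ rows) → span x`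
  let g : ((Fin m → O) ⧸ N) →ₗ[O] X := N.liftQ f hNf
  have hg : LinearMap.range g = Submodule.span O (Set.range x) := by
    rw [← hrange]; exact Submodule.range_liftQ N f hNf
  let g' : ((Fin m → O) ⧸ N) → Submodule.span O (Set.range x) := fun c =>
    ⟨g c, by rw [← hg]; exact LinearMap.mem_range_self g c⟩
  have hg' : Function.Surjective g' := by
    rintro ⟨y, hy⟩
    rw [← hg] at hy
    obtain ⟨c, rfl⟩ := hy
    exact ⟨c, rfl⟩
  refine ⟨Finite.of_surjective g' hg', ?_⟩
  rw [← hcard]
  exact Nat.card_le_card_of_surjective g' hg'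

end Relations

/-! ### entrywise congruences of matrices -/

section MatMem

variable {R : Type*} [CommRing R] {n : Type*} [Fintype n]

/-- all entries of the matrix lie in the ideal `K`. -/
def MatMem (K : Ideal R) (N : Matrix n n R) : Prop := ∀ i j, N i j ∈ K

namespace MatMem

variable {K K' : Ideal R} {A B : Matrix n n R}

theorem zero : MatMem K (0 : Matrix n n R) := fun _ _ => K.zero_mem

theorem add (hA : MatMem K A) (hB : MatMem K B) : MatMem K (A + B) := fun i j =>
  K.add_mem (hA i j) (hB i j)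

theorem sub (hA : MatMem K A) (hB : MatMem K B) : MatMem K (A - B) := fun i j =>
  K.sub_mem (hA i j) (hB i j)

theorem neg (hA : MatMem K A) : MatMem K (-A) := fun i j => K.neg_mem (hA i j)

theorem smul (c : R) (hA : MatMem K A) : MatMem K (c • A) := fun i j =>
  K.mul_mem_left c (hA i j)

theorem mul_left (N : Matrix n n R) (hA : MatMem K A) : MatMem K (N * A) := fun i j => by
  rw [Matrix.mul_apply]
  exact K.sum_mem fun k _ => K.mul_mem_left _ (hA k j)

theorem mul_right (N : Matrix n n R) (hA : MatMem K A) : MatMem K (A * N) := fun i j => by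
  rw [Matrix.mul_apply]
  exact K.sum_mem fun k _ => K.mul_mem_right _ (hA i k)

theorem mul (hA : MatMem K A) (hB : MatMem K' B) : MatMem (K * K') (A * B) := fun i j => by
  rw [Matrix.mul_apply]
  exact (K * K').sum_mem fun k _ => Ideal.mul_mem_mul (hA i k) (hB k j)

theorem mono (h : K ≤ K') (hA : MatMem K A) : MatMem K' A := fun i j => h (hA i j)

end MatMem

variable [DecidableEq n]

/-- `M = 1 + D` with `D ≡ 0 mod K` ⟹ `M ^ q ≡ 1 + q D mod K²`. -/
theorem matMem_pow_sub {K : Ideal R} (M : Matrix n n R) (hD : MatMem K (M - 1)) (q : ℕ) :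
    MatMem (K * K) (M ^ q - 1 - (q : R) • (M - 1)) := by
  induction q with
  | zero =>
    have : M ^ 0 - 1 - ((0 : ℕ) : R) • (M - 1) = 0 := by simp
    rw [this]; exact MatMem.zero
  | succ k ih =>
    have key : M ^ (k + 1) - 1 - ((k + 1 : ℕ) : R) • (M - 1) =
        (M ^ k - 1 - (k : R) • (M - 1)) * M + (k : R) • ((M - 1) * (M - 1)) := by
      rw [pow_succ]
      push_cast
      simp only [sub_mul, mul_sub, one_mul, mul_one, smul_sub, add_smul, one_smul, smul_mul_assoc]
      abel
    rw [key]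
    exact (ih.mul_right M).add ((hD.mul hD).smul _)

end MatMem

/-! ### Part 2: the `2 × 2` tame computation -/

section Tame

variable {O R : Type*} [CommRing O] [CommRing R] [Algebra O R] (π : R →ₐ[O] O)

/-- the matrix of `X ↦ Φ X adj(Φ) - q δ X` on trace-zero matrices, in the coordinates
`(X₁₁, X₁₂, X₂₁)`. -/
def growthMat (Φ : Matrix (Fin 2) (Fin 2) O) (q : O) : Matrix (Fin 3) (Fin 3) O :=
  !![Φ 0 0 * Φ 1 1 + Φ 0 1 * Φ 1 0 - q * Φ.det, -(Φ 0 0 * Φ 1 0), Φ 0 1 * Φ 1 1;
     -(2 * Φ 0 0 * Φ 0 1), Φ 0 0 ^ 2 - q * Φ.det, -(Φ 0 1 ^ 2);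
     2 * Φ 1 0 * Φ 1 1, -(Φ 1 0 ^ 2), Φ 1 1 ^ 2 - q * Φ.det]

section Entries

variable (Φ : Matrix (Fin 2) (Fin 2) O) (q : O)

theorem growthMat_00 : growthMat Φ q 0 0 = Φ 0 0 * Φ 1 1 + Φ 0 1 * Φ 1 0 - q * Φ.det := rfl
theorem growthMat_01 : growthMat Φ q 0 1 = -(Φ 0 0 * Φ 1 0) := rfl
theorem growthMat_02 : growthMat Φ q 0 2 = Φ 0 1 * Φ 1 1 := rfl
theorem growthMat_10 : growthMat Φ q 1 0 = -(2 * Φ 0 0 * Φ 0 1) := rfl
theorem growthMat_11 : growthMat Φ q 1 1 = Φ 0 0 ^ 2 - q * Φ.det := rfl
theorem growthMat_12 : growthMat Φ q 1 2 = -(Φ 0 1 ^ 2) := rfl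
theorem growthMat_20 : growthMat Φ q 2 0 = 2 * Φ 1 0 * Φ 1 1 := rfl
theorem growthMat_21 : growthMat Φ q 2 1 = -(Φ 1 0 ^ 2) := rfl
theorem growthMat_22 : growthMat Φ q 2 2 = Φ 1 1 ^ 2 - q * Φ.det := rfl

end Entries

/-- `det (growthMat Φ q) = δ² (1 - q) ((1 + q)² δ - q t²)`. -/
theorem det_growthMat (Φ : Matrix (Fin 2) (Fin 2) O) (q : O) :
    (growthMat Φ q).det =
      Φ.det ^ 2 * (1 - q) * ((1 + q) ^ 2 * Φ.det - q * Φ.trace ^ 2) := by
  rw [Matrix.det_fin_three, Matrix.trace_fin_two, Matrix.det_fin_two]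
  simp only [growthMat, Matrix.of_apply, Matrix.cons_val', Matrix.cons_val_zero,
    Matrix.cons_val_one, Matrix.cons_val_two, Matrix.empty_val', Matrix.cons_val_fin_one,
    Matrix.head_cons, Matrix.tail_cons, Matrix.head_fin_const, Matrix.det_fin_two]
  ring

/-- with `δ = q` and `t = a` : `det = q³ (1 - q) ((q + 1)² - a²)`. -/
theorem det_growthMat_of_det_eq (Φ : Matrix (Fin 2) (Fin 2) O) (q : O) (hδ : Φ.det = q) :
    (growthMat Φ q).det = q ^ 3 * ((1 - q) * ((q + 1) ^ 2 - Φ.trace ^ 2)) := by
  rw [det_growthMat, hδ]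
  ring

/-- the kernel of the augmentation. -/
abbrev augIdeal : Ideal R := RingHom.ker (π : R →+* O)

theorem sub_algebraMap_mem (r : R) : r - algebraMap O R (π r) ∈ augIdeal π := by
  rw [RingHom.mem_ker, map_sub]
  simp

/-- the constant matrix `π(F)`, viewed in `R`. -/
def constMat (F : Matrix (Fin 2) (Fin 2) R) : Matrix (Fin 2) (Fin 2) R :=
  (F.map π).map (algebraMap O R)

theorem matMem_sub_constMat (F : Matrix (Fin 2) (Fin 2) R) :
    MatMem (augIdeal π) (F - constMat π F) := fun i j => by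
  rw [Matrix.sub_apply, constMat, Matrix.map_apply, Matrix.map_apply]
  exact sub_algebraMap_mem π (F i j)

/-- **the tame relation modulo `I²`**: `Φ D ≡ q D Φ`, `D = M - 1`, `Φ = π(F)`. -/
theorem tame_congr (M F : Matrix (Fin 2) (Fin 2) R) (q : ℕ)
    (hM : MatMem (augIdeal π) (M - 1)) (hrel : F * M = M ^ q * F) :
    MatMem (augIdeal π * augIdeal π)
      (constMat π F * (M - 1) - (q : R) • ((M - 1) * constMat π F)) := by
  have h1 : MatMem (augIdeal π * augIdeal π) (F * (M - 1) - (q : R) • ((M - 1) * F)) := by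
    have key : F * (M - 1) - (q : R) • ((M - 1) * F) = (M ^ q - 1 - (q : R) • (M - 1)) * F := by
      rw [mul_sub, mul_one, hrel]
      simp only [sub_mul, one_mul, smul_mul_assoc]
    rw [key]
    exact (matMem_pow_sub M hM q).mul_right F
  have h2 : MatMem (augIdeal π * augIdeal π) ((F - constMat π F) * (M - 1)) :=
    (matMem_sub_constMat π F).mul hM
  have h3 : MatMem (augIdeal π * augIdeal π) ((M - 1) * (F - constMat π F)) :=
    hM.mul (matMem_sub_constMat π F)
  have key : constMat π F * (M - 1) - (q : R) • ((M - 1) * constMat π F) =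
      (F * (M - 1) - (q : R) • ((M - 1) * F)) - (F - constMat π F) * (M - 1) +
        (q : R) • ((M - 1) * (F - constMat π F)) := by
    simp only [sub_mul, mul_sub, smul_sub]
    abel
  rw [key]
  exact (h1.sub h2).add (h3.smul _)

/-- the coordinates `(D₁₁, D₁₂, D₂₁)` of `D = M - 1`. -/
def coordVec (M : Matrix (Fin 2) (Fin 2) R) : Fin 3 → R :=
  ![M 0 0 - 1, M 0 1, M 1 0]

theorem coordVec_zero (M : Matrix (Fin 2) (Fin 2) R) : coordVec M 0 = M 0 0 - 1 := rfl
theorem coordVec_one (M : Matrix (Fin 2) (Fin 2) R) : coordVec M 1 = M 0 1 := rfl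
theorem coordVec_two (M : Matrix (Fin 2) (Fin 2) R) : coordVec M 2 = M 1 0 := rfl

theorem coordVec_mem (M : Matrix (Fin 2) (Fin 2) R) (hM : MatMem (augIdeal π) (M - 1))
    (j : Fin 3) : coordVec M j ∈ augIdeal π := by
  have h00 := hM 0 0
  have h01 := hM 0 1
  have h10 := hM 1 0
  simp only [Matrix.sub_apply, Matrix.one_apply_eq, Matrix.one_apply_ne, ne_eq, zero_ne_one,
    one_ne_zero, not_false_eq_true, sub_zero] at h00 h01 h10
  fin_cases j
  · exact h00
  · exact h01
  · exact h10

/-- `det M = 1` ⟹ `D₁₁ + D₂₂ ∈ I²`. -/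
theorem trace_mem_sq (M : Matrix (Fin 2) (Fin 2) R) (hM : MatMem (augIdeal π) (M - 1))
    (hdet : M.det = 1) : (M 0 0 - 1) + (M 1 1 - 1) ∈ augIdeal π * augIdeal π := by
  have h00 := hM 0 0
  have h01 := hM 0 1
  have h10 := hM 1 0
  have h11 := hM 1 1
  simp only [Matrix.sub_apply, Matrix.one_apply_eq, Matrix.one_apply_ne, ne_eq, zero_ne_one,
    one_ne_zero, not_false_eq_true, sub_zero] at h00 h01 h10 h11
  rw [Matrix.det_fin_two] at hdet
  have key : (M 0 0 - 1) + (M 1 1 - 1) = M 0 1 * M 1 0 - (M 0 0 - 1) * (M 1 1 - 1) := by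
    linear_combination hdet
  rw [key]
  exact Ideal.sub_mem _ (Ideal.mul_mem_mul h01 h10) (Ideal.mul_mem_mul h00 h11)

/-- **the three relations**: `growthMat Φ q • (D₁₁, D₁₂, D₂₁)ᵀ ≡ 0 mod I²`. -/
theorem tame_relations (M F : Matrix (Fin 2) (Fin 2) R) (q : ℕ)
    (hM : MatMem (augIdeal π) (M - 1)) (hdet : M.det = 1) (hrel : F * M = M ^ q * F)
    (i : Fin 3) :
    ∑ j, algebraMap O R (growthMat (F.map π) (q : O) i j) * coordVec M j ∈
      augIdeal π * augIdeal π := by
  have hE := tame_congr π M F q hM hrel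
  have hs := trace_mem_sq π M hM hdet
  have E00 := hE 0 0
  have E01 := hE 0 1
  have E10 := hE 1 0
  have E11 := hE 1 1
  simp only [constMat, Matrix.sub_apply, Matrix.smul_apply, Matrix.mul_apply, Fin.sum_univ_two,
    Matrix.map_apply, Matrix.one_apply_eq, Matrix.one_apply_ne, ne_eq, zero_ne_one, one_ne_zero,
    not_false_eq_true, sub_zero, smul_eq_mul] at E00 E01 E10 E11
  set a := algebraMap O R (π (F 0 0)) with ha
  set b := algebraMap O R (π (F 0 1)) with hb
  set c := algebraMap O R (π (F 1 0)) with hc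
  set d := algebraMap O R (π (F 1 1)) with hd
  set x := M 0 0 - 1 with hx
  set w := M 1 1 - 1 with hw
  set y := M 0 1 with hy
  set z := M 1 0 with hz
  set K := augIdeal π * augIdeal π with hK
  fin_cases i
  · have : ∑ j, algebraMap O R (growthMat (F.map π) (q : O) 0 j) * coordVec M j =
        (a * x + b * z - (q : R) * (x * a + y * c)) * d -
          (a * y + b * w - (q : R) * (x * b + y * d)) * c + b * c * (x + w) := by
      rw [Fin.sum_univ_three, growthMat_00, growthMat_01, growthMat_02, coordVec_zero,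
        coordVec_one, coordVec_two, Matrix.det_fin_two]
      simp only [Matrix.map_apply, map_add, map_sub, map_mul, map_neg, map_natCast, map_pow,
        map_ofNat]
      ring
    show ∑ j, algebraMap O R (growthMat (F.map π) (q : O) 0 j) * coordVec M j ∈ K
    rw [this]
    exact K.add_mem (K.sub_mem (K.mul_mem_right _ E00) (K.mul_mem_right _ E01))
      (K.mul_mem_left _ hs)
  · have : ∑ j, algebraMap O R (growthMat (F.map π) (q : O) 1 j) * coordVec M j =
        -((a * x + b * z - (q : R) * (x * a + y * c)) * b) +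
          (a * y + b * w - (q : R) * (x * b + y * d)) * a - a * b * (x + w) := by
      rw [Fin.sum_univ_three, growthMat_10, growthMat_11, growthMat_12, coordVec_zero,
        coordVec_one, coordVec_two, Matrix.det_fin_two]
      simp only [Matrix.map_apply, map_add, map_sub, map_mul, map_neg, map_natCast, map_pow,
        map_ofNat]
      ring
    show ∑ j, algebraMap O R (growthMat (F.map π) (q : O) 1 j) * coordVec M j ∈ K
    rw [this]
    exact K.sub_mem (K.add_mem (K.neg_mem (K.mul_mem_right _ E00)) (K.mul_mem_right _ E01))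
      (K.mul_mem_left _ hs)
  · have : ∑ j, algebraMap O R (growthMat (F.map π) (q : O) 2 j) * coordVec M j =
        (c * x + d * z - (q : R) * (z * a + w * c)) * d -
          (c * y + d * w - (q : R) * (z * b + w * d)) * c + c * d * (x + w) := by
      rw [Fin.sum_univ_three, growthMat_20, growthMat_21, growthMat_22, coordVec_zero,
        coordVec_one, coordVec_two, Matrix.det_fin_two]
      simp only [Matrix.map_apply, map_add, map_sub, map_mul, map_neg, map_natCast, map_pow,
        map_ofNat]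
      ring
    show ∑ j, algebraMap O R (growthMat (F.map π) (q : O) 2 j) * coordVec M j ∈ K
    rw [this]
    exact K.add_mem (K.sub_mem (K.mul_mem_right _ E10) (K.mul_mem_right _ E11))
      (K.mul_mem_left _ hs)

end Tame

/-! ### Part 3: the cotangent spaces -/

section Cotangent

variable {O R : Type*} [CommRing O] [CommRing R] [Algebra O R] (π : R →ₐ[O] O)

/-- the classes of `(D₁₁, D₁₂, D₂₁)` in the cotangent space `I ⧸ I²`. -/
def coordCot (M : Matrix (Fin 2) (Fin 2) R) (hM : MatMem (augIdeal π) (M - 1)) :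
    Fin 3 → (augIdeal π).Cotangent := fun j =>
  (augIdeal π).toCotangent ⟨coordVec M j, coordVec_mem π M hM j⟩

theorem smul_toCotangent (c : O) (u : augIdeal π) :
    c • (augIdeal π).toCotangent u = (augIdeal π).toCotangent (c • u) := rfl

/-- the relations hold in the cotangent space. -/
theorem coordCot_relations (M F : Matrix (Fin 2) (Fin 2) R) (q : ℕ)
    (hM : MatMem (augIdeal π) (M - 1)) (hdet : M.det = 1) (hrel : F * M = M ^ q * F)
    (i : Fin 3) :
    ∑ j, growthMat (F.map π) (q : O) i j • coordCot π M hM j = 0 := by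
  have h := tame_relations π M F q hM hdet hrel i
  set u : Fin 3 → augIdeal π := fun j => ⟨coordVec M j, coordVec_mem π M hM j⟩ with hu
  have key : ∑ j, growthMat (F.map π) (q : O) i j • coordCot π M hM j =
      (augIdeal π).toCotangent (∑ j, growthMat (F.map π) (q : O) i j • u j) := by
    rw [map_sum]
    rfl
  have hcoe : ((∑ j, growthMat (F.map π) (q : O) i j • u j : augIdeal π) : R) =
      ∑ j, algebraMap O R (growthMat (F.map π) (q : O) i j) * coordVec M j := by
    rw [Fin.sum_univ_three, Fin.sum_univ_three]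
    simp only [Submodule.coe_add, Submodule.coe_smul_of_tower, Algebra.smul_def, hu]
  rw [key, Ideal.toCotangent_eq_zero, pow_two, hcoe]
  exact h

variable [IsDomain O] [IsDiscreteValuationRing O] [Finite (IsLocalRing.ResidueField O)]

/-- **the span of the three classes has at most `#(O ⧸ det)` elements.** -/
theorem card_span_coordCot_le (M F : Matrix (Fin 2) (Fin 2) R) (q : ℕ)
    (hM : MatMem (augIdeal π) (M - 1)) (hdet : M.det = 1) (hrel : F * M = M ^ q * F)
    (hne : (growthMat (F.map π) (q : O)).det ≠ 0) :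
    Finite (Submodule.span O (Set.range (coordCot π M hM))) ∧
      Nat.card (Submodule.span O (Set.range (coordCot π M hM))) ≤
        Nat.card (O ⧸ Ideal.span {(growthMat (F.map π) (q : O)).det}) :=
  card_span_le_of_relations _ hne _ (coordCot_relations π M F q hM hdet hrel)

/-- the ideal generated by the entries of `M - 1`. -/
def entryIdeal (M : Matrix (Fin 2) (Fin 2) R) : Ideal R :=
  Ideal.span {M 0 0 - 1, M 0 1, M 1 0, M 1 1 - 1}

omit [IsDomain O] [IsDiscreteValuationRing O] [Finite (IsLocalRing.ResidueField O)] in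
/-- the class of every element of `(entries of M - 1)` lies in the `O`-span of the three classes. -/
theorem toCotangent_mem_span_of_mem (M : Matrix (Fin 2) (Fin 2) R)
    (hM : MatMem (augIdeal π) (M - 1)) (hdet : M.det = 1) {g : R} (hg : g ∈ entryIdeal M) :
    ∃ hgI : g ∈ augIdeal π, (augIdeal π).toCotangent ⟨g, hgI⟩ ∈
      Submodule.span O (Set.range (coordCot π M hM)) := by
  set Y := Submodule.span O (Set.range (coordCot π M hM)) with hY
  have hc : ∀ j, coordCot π M hM j ∈ Y := fun j => Submodule.subset_span ⟨j, rfl⟩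
  have h11 : M 1 1 - 1 ∈ augIdeal π := by
    have := hM 1 1
    simpa only [Matrix.sub_apply, Matrix.one_apply_eq] using this
  unfold entryIdeal at hg
  induction hg using Submodule.span_induction with
  | mem g hg =>
    simp only [Set.mem_insert_iff, Set.mem_singleton_iff] at hg
    rcases hg with rfl | rfl | rfl | rfl
    · exact ⟨coordVec_mem π M hM 0, hc 0⟩
    · exact ⟨coordVec_mem π M hM 1, hc 1⟩
    · exact ⟨coordVec_mem π M hM 2, hc 2⟩
    · refine ⟨h11, ?_⟩
      have h0 : (augIdeal π).toCotangent ⟨M 1 1 - 1, h11⟩ = -coordCot π M hM 0 := by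
        rw [coordCot, ← map_neg, Ideal.toCotangent_eq, pow_two]
        have := trace_mem_sq π M hM hdet
        have e : ((⟨M 1 1 - 1, h11⟩ : augIdeal π) : R) -
            ((-(⟨coordVec M 0, coordVec_mem π M hM 0⟩ : augIdeal π) : augIdeal π) : R) =
            (M 0 0 - 1) + (M 1 1 - 1) := by
          show (M 1 1 - 1) - -(M 0 0 - 1) = (M 0 0 - 1) + (M 1 1 - 1)
          ring
        rw [e]
        exact this
      rw [h0]
      exact Y.neg_mem (hc 0)
  | zero => exact ⟨(augIdeal π).zero_mem, by
      have : (⟨0, (augIdeal π).zero_mem⟩ : augIdeal π) = 0 := rfl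
      rw [this, map_zero]; exact Y.zero_mem⟩
  | add x y _ _ hx hy =>
    obtain ⟨hxI, hx⟩ := hx
    obtain ⟨hyI, hy⟩ := hy
    refine ⟨(augIdeal π).add_mem hxI hyI, ?_⟩
    have : (⟨x + y, (augIdeal π).add_mem hxI hyI⟩ : augIdeal π) = ⟨x, hxI⟩ + ⟨y, hyI⟩ := rfl
    rw [this, map_add]
    exact Y.add_mem hx hy
  | smul a x _ hx =>
    obtain ⟨hxI, hx⟩ := hx
    refine ⟨(augIdeal π).mul_mem_left a hxI, ?_⟩
    have h1 : (⟨a • x, (augIdeal π).mul_mem_left a hxI⟩ : augIdeal π) = a • ⟨x, hxI⟩ := rfl
    rw [h1, map_smul]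
    have h2 : a • (augIdeal π).toCotangent ⟨x, hxI⟩ =
        π a • (augIdeal π).toCotangent ⟨x, hxI⟩ := by
      have h3 : a = (a - algebraMap O R (π a)) + algebraMap O R (π a) := by ring
      conv_lhs => rw [h3, add_smul]
      rw [Ideal.Cotangent.smul_eq_zero_of_mem (sub_algebraMap_mem π a), zero_add,
        algebraMap_smul]
    rw [h2]
    exact Y.smul_mem _ hx

/-- **THE GROWTH BOUND.** `ψ : R ↠ S` a surjection of augmented `O`-algebras whose kernel is
contained in the ideal generated by the entries of `M - 1` (`M = ρ(τ₀)` the image of a tame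
generator, `F = ρ(φ)` a Frobenius lift): then
`#(I_R ⧸ I_R²) ≤ #(I_S ⧸ I_S²) · #(O ⧸ det (growthMat π(F) q))`. -/
theorem card_cotangent_le {S : Type*} [CommRing S] [Algebra O S] (ψ : R →ₐ[O] S)
    (hψ : Function.Surjective ψ) (π' : S →ₐ[O] O) (hπ : π'.comp ψ = π)
    (M F : Matrix (Fin 2) (Fin 2) R) (q : ℕ)
    (hM : MatMem (augIdeal π) (M - 1)) (hdet : M.det = 1) (hrel : F * M = M ^ q * F)
    (hne : (growthMat (F.map π) (q : O)).det ≠ 0)
    (hker : RingHom.ker (ψ : R →+* S) ≤ entryIdeal M)
    [Finite (augIdeal π').Cotangent] :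
    Finite (augIdeal π).Cotangent ∧
      Nat.card (augIdeal π).Cotangent ≤ Nat.card (augIdeal π').Cotangent *
        Nat.card (O ⧸ Ideal.span {(growthMat (F.map π) (q : O)).det}) := by
  classical
  set Y := Submodule.span O (Set.range (coordCot π M hM)) with hY
  obtain ⟨hYfin, hYcard⟩ := card_span_coordCot_le π M F q hM hdet hrel hne
  have hπ' : ∀ r : R, π' (ψ r) = π r := fun r => by rw [← hπ]; rfl
  have hle : augIdeal π ≤ (augIdeal π').comap ψ := fun r hr => by
    rw [Ideal.mem_comap, RingHom.mem_ker]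
    rw [RingHom.mem_ker] at hr
    exact (hπ' r).trans hr
  let f : (augIdeal π).Cotangent →ₗ[O] (augIdeal π').Cotangent :=
    Ideal.mapCotangent (augIdeal π) (augIdeal π') ψ hle
  have hf : ∀ u : augIdeal π, f ((augIdeal π).toCotangent u) =
      (augIdeal π').toCotangent ⟨ψ u, hle u.2⟩ := fun u =>
    Ideal.mapCotangent_toCotangent _ _ ψ hle u
  -- the augmentation ideal downstairs is the image of the one upstairs
  have hmap : augIdeal π' = (augIdeal π).map (ψ : R →+* S) := by
    apply le_antisymm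
    · intro s hs
      obtain ⟨r, rfl⟩ := hψ s
      refine Ideal.mem_map_of_mem _ ?_
      rw [RingHom.mem_ker] at hs ⊢
      exact (hπ' r).symm.trans hs
    · rw [Ideal.map_le_iff_le_comap]
      exact hle
  -- surjectivity
  have hfsurj : Function.Surjective f := by
    intro y
    obtain ⟨⟨s, hs⟩, rfl⟩ := (augIdeal π').toCotangent_surjective y
    obtain ⟨r, rfl⟩ := hψ s
    have hr : r ∈ augIdeal π := by
      rw [RingHom.mem_ker] at hs ⊢
      exact (hπ' r).symm.trans hs
    exact ⟨(augIdeal π).toCotangent ⟨r, hr⟩, hf ⟨r, hr⟩⟩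
  -- the kernel lies in `Y`
  have hK : LinearMap.ker f ≤ Y := by
    intro m hm
    obtain ⟨u, rfl⟩ := (augIdeal π).toCotangent_surjective m
    rw [LinearMap.mem_ker, hf, Ideal.toCotangent_eq_zero] at hm
    have hm' : ψ (u : R) ∈ augIdeal π' ^ 2 := hm
    rw [hmap, ← Ideal.map_pow] at hm'
    obtain ⟨v, hv, hvu⟩ := (Ideal.mem_map_iff_of_surjective (ψ : R →+* S) hψ).mp hm'
    have hg : (u : R) - v ∈ entryIdeal M := hker (by
      rw [RingHom.mem_ker, map_sub, sub_eq_zero]; exact hvu.symm)
    obtain ⟨hgI, hgY⟩ := toCotangent_mem_span_of_mem π M hM hdet hg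
    have : (augIdeal π).toCotangent u = (augIdeal π).toCotangent ⟨(u : R) - v, hgI⟩ := by
      rw [Ideal.toCotangent_eq]
      have e : ((u : augIdeal π) : R) - ((⟨(u : R) - v, hgI⟩ : augIdeal π) : R) = v := by
        show (u : R) - ((u : R) - v) = v
        ring
      rw [e]
      exact hv
    rw [this]
    exact hgY
  -- counting
  have hKfin : Finite (LinearMap.ker f) :=
    Finite.of_injective (fun m : LinearMap.ker f => (⟨m.1, hK m.2⟩ : Y)) (fun a b h => by
      apply Subtype.ext
      exact congrArg (fun y : Y => (y : (augIdeal π).Cotangent)) h)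
  have hKcard : Nat.card (LinearMap.ker f) ≤ Nat.card Y :=
    Nat.card_le_card_of_injective (fun m : LinearMap.ker f => (⟨m.1, hK m.2⟩ : Y))
      (fun a b h => by
        apply Subtype.ext
        exact congrArg (fun y : Y => (y : (augIdeal π).Cotangent)) h)
  have hquot : Nat.card ((augIdeal π).Cotangent ⧸ LinearMap.ker f) =
      Nat.card (augIdeal π').Cotangent :=
    Nat.card_congr (f.quotKerEquivOfSurjective hfsurj).toEquiv
  have hcard := Submodule.card_eq_card_quotient_mul_card (LinearMap.ker f)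
  rw [hquot] at hcard
  have hpos1 : 0 < Nat.card (LinearMap.ker f) := Nat.card_pos
  have hpos2 : 0 < Nat.card (augIdeal π').Cotangent := Nat.card_pos
  refine ⟨Nat.finite_of_card_ne_zero (by rw [hcard]; positivity), ?_⟩
  rw [hcard, mul_comm]
  exact Nat.mul_le_mul_left _ (hKcard.trans hYcard)

/-- **THE GROWTH BOUND, Wiles' form**: if moreover `det π(F) = q` is a unit of `O` then the factor
is `c_q = (q - 1)(a_q² - (q + 1)²)`, `a_q = tr π(F)`. -/
theorem card_cotangent_le_wiles {S : Type*} [CommRing S] [Algebra O S] (ψ : R →ₐ[O] S)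
    (hψ : Function.Surjective ψ) (π' : S →ₐ[O] O) (hπ : π'.comp ψ = π)
    (M F : Matrix (Fin 2) (Fin 2) R) (q : ℕ)
    (hM : MatMem (augIdeal π) (M - 1)) (hdet : M.det = 1) (hrel : F * M = M ^ q * F)
    (hδ : (F.map π).det = (q : O)) (hq : IsUnit (q : O))
    (hc : ((q : O) - 1) * ((F.map π).trace ^ 2 - ((q : O) + 1) ^ 2) ≠ 0)
    (hker : RingHom.ker (ψ : R →+* S) ≤ entryIdeal M)
    [Finite (augIdeal π').Cotangent] :
    Finite (augIdeal π).Cotangent ∧
      Nat.card (augIdeal π).Cotangent ≤ Nat.card (augIdeal π').Cotangent *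
        Nat.card (O ⧸ Ideal.span {((q : O) - 1) * ((F.map π).trace ^ 2 - ((q : O) + 1) ^ 2)}) := by
  have hd : (growthMat (F.map π) (q : O)).det =
      (q : O) ^ 3 * (((q : O) - 1) * ((F.map π).trace ^ 2 - ((q : O) + 1) ^ 2)) := by
    rw [det_growthMat_of_det_eq _ _ hδ]
    ring
  have hne : (growthMat (F.map π) (q : O)).det ≠ 0 := by
    rw [hd]
    exact mul_ne_zero (pow_ne_zero _ hq.ne_zero) hc
  have hass : Associated (growthMat (F.map π) (q : O)).det
      (((q : O) - 1) * ((F.map π).trace ^ 2 - ((q : O) + 1) ^ 2)) := by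
    rw [hd]
    exact (associated_isUnit_mul_left_iff (hq.pow 3)).mpr (Associated.refl _)
  have h := card_cotangent_le π ψ hψ π' hπ M F q hM hdet hrel hne hker
  rw [Fermat.Agent.GE9.NumCrit.card_quotient_span_of_associated hass] at h
  exact h

end Cotangent

end Fermat.Agent.GE9.Growth
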