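/-
GATE-E / E9 (helper46): the 20-line plug `c_q ≠ 0` (helper10 GRAPH v0 A1, R2):
for a normalised eigenform `g` of weight 2 on `Γ₀(N)` and a prime `q ∤ N`, Wiles' local factor
`c_q = (q − 1)((1 + q)² − a_q²)` is non-zero, in every coefficient ring that sees `a_q`:

* `cq_ne_zero_of_ringHom` : any commutative ring `O` with a ring hom `ι : O →+* ℂ` and `a : O`
  with `ι a = a_q(g)` (no injectivity needed);
* `cq_int_ne_zero` : `a_q(g) = (a : ℂ)` with `a : ℤ`, the factor in `ℤ`;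
* `cq_ne_zero` : the same in any `CharZero` ring `O` (the E10 EIGEN situation: rational
  eigensystem, `O` a characteristic-zero DVR);
* `wilesFactor_ne_zero` : the exact `hc` binder of helper63's
  `GE9.TanGrow.card_cotangent_le_mul_wiles`, from `tr F₀ = a`;
* `cq_ne_zero'` : the normalisation `(q − 1)(a² − (q + 1)²)` of
  `GE9.Growth.card_cotangent_le_wiles`.

Source: `GB.B10N.HeckeBound.qCoeff_prime_sq_ne` (helper49): `a_q(g)² ≠ (q + 1)²`.
-/
import Mathlib
import Fermat.Agent.GB.B10N.HeckeBoundEig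
import Fermat.Agent.GE9.TanGrow.Main

set_option autoImplicit false

open CongruenceSubgroup ModularFormClass

namespace Fermat.Agent.GE9.Growth

variable {N : ℕ} [NeZero N] {g : CuspForm (Gamma0 N) 2}

/-- general coefficient ring: `ι : O →+* ℂ` with `ι a = a_q(g)` (no injectivity needed). -/
theorem cq_ne_zero_of_ringHom (hg : g.IsNormalizedEigenform) {q : ℕ} (hq : q.Prime)
    (hqN : ¬ q ∣ N) {O : Type*} [CommRing O] (ι : O →+* ℂ) {a : O} (ha : ι a = qCoeff g q) :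
    ((q : O) - 1) * ((1 + (q : O)) ^ 2 - a ^ 2) ≠ 0 := by
  intro h0
  have h1 : ι (((q : O) - 1) * ((1 + (q : O)) ^ 2 - a ^ 2)) = 0 := by rw [h0, map_zero]
  simp only [map_mul, map_sub, map_add, map_pow, map_one, map_natCast, ha] at h1
  rcases mul_eq_zero.1 h1 with h2 | h2
  · have h3 : (q : ℂ) = 1 := sub_eq_zero.1 h2
    have h4 : q = 1 := by exact_mod_cast h3
    exact hq.one_lt.ne' h4
  · refine Fermat.Agent.GB.B10N.HeckeBound.qCoeff_prime_sq_ne hg hq hqN ?_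
    have h3 := sub_eq_zero.1 h2
    rw [← h3]; ring

/-- rational eigensystem, the factor in `ℤ`. -/
theorem cq_int_ne_zero (hg : g.IsNormalizedEigenform) {q : ℕ} (hq : q.Prime)
    (hqN : ¬ q ∣ N) {a : ℤ} (ha : qCoeff g q = (a : ℂ)) :
    ((q : ℤ) - 1) * ((1 + (q : ℤ)) ^ 2 - a ^ 2) ≠ 0 :=
  cq_ne_zero_of_ringHom hg hq hqN (Int.castRingHom ℂ) (by simpa using ha.symm)

/-- rational eigensystem, the factor in any characteristic-zero ring. -/
theorem cq_ne_zero (hg : g.IsNormalizedEigenform) {q : ℕ} (hq : q.Prime)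
    (hqN : ¬ q ∣ N) {a : ℤ} (ha : qCoeff g q = (a : ℂ)) (O : Type*) [CommRing O] [CharZero O] :
    ((q : O) - 1) * ((1 + (q : O)) ^ 2 - (a : O) ^ 2) ≠ 0 := by
  have h := cq_int_ne_zero hg hq hqN ha
  intro h0
  apply h
  have : (((((q : ℤ) - 1) * ((1 + (q : ℤ)) ^ 2 - a ^ 2) : ℤ)) : O) = 0 := by
    push_cast; exact h0
  exact_mod_cast this

/-- the normalisation `(q − 1)(a² − (q + 1)²)` of `card_cotangent_le_wiles`. -/
theorem cq_ne_zero' (hg : g.IsNormalizedEigenform) {q : ℕ} (hq : q.Prime)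
    (hqN : ¬ q ∣ N) {a : ℤ} (ha : qCoeff g q = (a : ℂ)) (O : Type*) [CommRing O] [CharZero O] :
    ((q : O) - 1) * ((a : O) ^ 2 - ((q : O) + 1) ^ 2) ≠ 0 := by
  intro h0
  apply cq_ne_zero hg hq hqN ha O
  linear_combination (-1 : O) * h0

/-- the `hc` binder of `GE9.TanGrow.card_cotangent_le_mul_wiles`, from `tr F₀ = a_q`. -/
theorem wilesFactor_ne_zero (hg : g.IsNormalizedEigenform) {q : ℕ} (hq : q.Prime)
    (hqN : ¬ q ∣ N) {a : ℤ} (ha : qCoeff g q = (a : ℂ)) {O : Type*} [CommRing O] [CharZero O]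
    (F₀ : Matrix (Fin 2) (Fin 2) O) (htr : F₀.trace = (a : O)) :
    Fermat.Agent.GE9.TanGrow.wilesFactor F₀ (q : O) ≠ 0 := by
  rw [Fermat.Agent.GE9.TanGrow.wilesFactor, htr]
  exact cq_ne_zero hg hq hqN ha O

/-- the same with a general coefficient ring `ι : O →+* ℂ`, `ι (tr F₀) = a_q(g)`. -/
theorem wilesFactor_ne_zero_of_ringHom (hg : g.IsNormalizedEigenform) {q : ℕ} (hq : q.Prime)
    (hqN : ¬ q ∣ N) {O : Type*} [CommRing O] (ι : O →+* ℂ)
    (F₀ : Matrix (Fin 2) (Fin 2) O) (htr : ι F₀.trace = qCoeff g q) :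
    Fermat.Agent.GE9.TanGrow.wilesFactor F₀ (q : O) ≠ 0 := by
  rw [Fermat.Agent.GE9.TanGrow.wilesFactor]
  exact cq_ne_zero_of_ringHom hg hq hqN ι htr

end Fermat.Agent.GE9.Growth
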